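import Mathlib

/-!
# T2.02d.5b, core (helper8): unitary equivalence of `M`, `Mᵀ` and `adjugate M` over `ℂ`

Mathlib only.  For an invertible complex square matrix `M` the Hermitian matrix `Mᴴ * M` is positive
definite; the spectral theorem gives `Mᴴ * M = V * diagonal ev * Vᴴ` with `V` unitary and `ev > 0`, so that
`P := M * V * diagonal (1 / √ev)` is unitary and `M = P * diagonal (√ev) * Vᴴ` (singular value
decomposition).  Hence `Mᵀ = (V̄ * Pᴴ) * M * (V * Pᵀ)`, and for `2 × 2` matrices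
`adjugate M = J * Mᵀ * Jᴴ` with `J = !![0, 1; -1, 0]`.
-/

namespace Fermat.Agent.LT.T2.H8

open Matrix
open scoped ComplexOrder

/-- Singular value decomposition of an invertible complex square matrix, in the form needed here:
`M = P * diagonal d * Q` with `P`, `Q` unitary. -/
theorem exists_unitary_diag_unitary8 {n : Type*} [Fintype n] [DecidableEq n]
    (M : Matrix n n ℂ) (hM : M.det ≠ 0) :
    ∃ (P Q : Matrix n n ℂ) (d : n → ℂ),
      P * Pᴴ = 1 ∧ Pᴴ * P = 1 ∧ Q * Qᴴ = 1 ∧ Qᴴ * Q = 1 ∧ M = P * diagonal d * Q := by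
  classical
  have hH : (Mᴴ * M).IsHermitian := isHermitian_conjTranspose_mul_self M
  have hinj : Function.Injective M.mulVec :=
    Matrix.mulVec_injective_iff_isUnit.mpr ((Matrix.isUnit_iff_isUnit_det _).mpr (Ne.isUnit hM))
  have hPD : (Mᴴ * M).PosDef := Matrix.PosDef.conjTranspose_mul_self M hinj
  obtain ⟨V, ev, hVV, hVV', hpos, hspec⟩ : ∃ (V : Matrix n n ℂ) (ev : n → ℝ),
      Vᴴ * V = 1 ∧ V * Vᴴ = 1 ∧ (∀ i, 0 < ev i) ∧
        Mᴴ * M = V * diagonal (fun i => ((ev i : ℝ) : ℂ)) * Vᴴ := by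
    refine ⟨(hH.eigenvectorUnitary : Matrix n n ℂ), hH.eigenvalues, ?_, ?_, ?_, ?_⟩
    · exact Unitary.coe_star_mul_self hH.eigenvectorUnitary
    · exact Unitary.coe_mul_star_self hH.eigenvectorUnitary
    · exact fun i => hPD.eigenvalues_pos i
    · have h := hH.spectral_theorem
      rw [Unitary.conjStarAlgAut_apply] at h
      exact h
  -- the diagonal matrices
  set s : n → ℂ := fun i => ((Real.sqrt (ev i) : ℝ) : ℂ) with hs
  set t : n → ℂ := fun i => (((Real.sqrt (ev i))⁻¹ : ℝ) : ℂ) with ht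
  have hst : ∀ i, s i * t i = 1 := by
    intro i
    have h0 : Real.sqrt (ev i) ≠ 0 := (Real.sqrt_pos.mpr (hpos i)).ne'
    simp only [hs, ht]
    rw [← Complex.ofReal_mul, mul_inv_cancel₀ h0, Complex.ofReal_one]
  have htet : ∀ i, t i * ((ev i : ℝ) : ℂ) * t i = 1 := by
    intro i
    have h0 : Real.sqrt (ev i) ≠ 0 := (Real.sqrt_pos.mpr (hpos i)).ne'
    simp only [ht]
    rw [← Complex.ofReal_mul, ← Complex.ofReal_mul, ← Complex.ofReal_one]
    congr 1
    have hsq : Real.sqrt (ev i) * Real.sqrt (ev i) = ev i :=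
      Real.mul_self_sqrt (hpos i).le
    field_simp
    nlinarith [hsq]
  have htH : (diagonal t)ᴴ = diagonal t := by
    rw [diagonal_conjTranspose]
    congr 1
    funext i
    simp [ht]
  refine ⟨M * V * diagonal t, Vᴴ, s, ?_, ?_, ?_, ?_, ?_⟩
  · -- P * Pᴴ = 1 follows from Pᴴ * P = 1
    have h1 : (M * V * diagonal t)ᴴ * (M * V * diagonal t) = 1 := by
      rw [conjTranspose_mul, conjTranspose_mul, htH]
      calc diagonal t * (Vᴴ * Mᴴ) * (M * V * diagonal t)
          = diagonal t * (Vᴴ * (Mᴴ * M) * V) * diagonal t := by simp only [Matrix.mul_assoc]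
        _ = diagonal t * ((Vᴴ * V) * diagonal (fun i => ((ev i : ℝ) : ℂ)) * (Vᴴ * V))
              * diagonal t := by rw [hspec]; simp only [Matrix.mul_assoc]
        _ = 1 := by
            rw [hVV, Matrix.one_mul, Matrix.mul_one, diagonal_mul_diagonal, diagonal_mul_diagonal]
            rw [← diagonal_one]
            congr 1
            funext i
            exact htet i
    exact mul_eq_one_comm.mp h1
  · rw [conjTranspose_mul, conjTranspose_mul, htH]
    calc diagonal t * (Vᴴ * Mᴴ) * (M * V * diagonal t)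
        = diagonal t * (Vᴴ * (Mᴴ * M) * V) * diagonal t := by simp only [Matrix.mul_assoc]
      _ = diagonal t * ((Vᴴ * V) * diagonal (fun i => ((ev i : ℝ) : ℂ)) * (Vᴴ * V))
            * diagonal t := by rw [hspec]; simp only [Matrix.mul_assoc]
      _ = 1 := by
          rw [hVV, Matrix.one_mul, Matrix.mul_one, diagonal_mul_diagonal, diagonal_mul_diagonal]
          rw [← diagonal_one]
          congr 1
          funext i
          exact htet i
  · rw [conjTranspose_conjTranspose]; exact hVV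
  · rw [conjTranspose_conjTranspose]; exact hVV'
  · have hts : diagonal t * diagonal s = (1 : Matrix n n ℂ) := by
      rw [diagonal_mul_diagonal, ← diagonal_one]
      congr 1
      funext i
      rw [mul_comm]; exact hst i
    calc M = M * (V * Vᴴ) := by rw [hVV', Matrix.mul_one]
      _ = M * V * (diagonal t * diagonal s) * Vᴴ := by
          rw [hts, Matrix.mul_one, Matrix.mul_assoc]
      _ = M * V * diagonal t * diagonal s * Vᴴ := by simp only [Matrix.mul_assoc]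

/-- An invertible complex square matrix is unitarily equivalent to its transpose. -/
theorem exists_unitary_transpose8 {n : Type*} [Fintype n] [DecidableEq n]
    (M : Matrix n n ℂ) (hM : M.det ≠ 0) :
    ∃ A B : Matrix n n ℂ, A * Aᴴ = 1 ∧ B * Bᴴ = 1 ∧ Mᵀ = A * M * B := by
  obtain ⟨P, Q, d, hP, hP', hQ, hQ', hMd⟩ := exists_unitary_diag_unitary8 M hM
  have hQT : Qᵀ * (Qᵀ)ᴴ = 1 := by
    have : (Qᵀ)ᴴ = (Qᴴ)ᵀ := by
      ext i j; simp [conjTranspose_apply, transpose_apply]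
    rw [this, ← transpose_mul, hQ', transpose_one]
  have hPT : Pᵀ * (Pᵀ)ᴴ = 1 := by
    have : (Pᵀ)ᴴ = (Pᴴ)ᵀ := by
      ext i j; simp [conjTranspose_apply, transpose_apply]
    rw [this, ← transpose_mul, hP', transpose_one]
  refine ⟨Qᵀ * Pᴴ, Qᴴ * Pᵀ, ?_, ?_, ?_⟩
  · rw [conjTranspose_mul, conjTranspose_conjTranspose]
    calc Qᵀ * Pᴴ * (P * (Qᵀ)ᴴ) = Qᵀ * (Pᴴ * P) * (Qᵀ)ᴴ := by simp only [Matrix.mul_assoc]
      _ = 1 := by rw [hP', Matrix.mul_one, hQT]
  · rw [conjTranspose_mul, conjTranspose_conjTranspose]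
    calc Qᴴ * Pᵀ * ((Pᵀ)ᴴ * Q) = Qᴴ * (Pᵀ * (Pᵀ)ᴴ) * Q := by simp only [Matrix.mul_assoc]
      _ = 1 := by rw [hPT, Matrix.mul_one, hQ']
  · calc Mᵀ = Qᵀ * diagonal d * Pᵀ := by
          conv_lhs => rw [hMd]
          rw [transpose_mul, transpose_mul, diagonal_transpose, Matrix.mul_assoc]
      _ = Qᵀ * ((Pᴴ * P) * diagonal d * (Q * Qᴴ)) * Pᵀ := by
          rw [hP', hQ, Matrix.one_mul, Matrix.mul_one]
      _ = Qᵀ * Pᴴ * (P * diagonal d * Q) * (Qᴴ * Pᵀ) := by simp only [Matrix.mul_assoc]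
      _ = Qᵀ * Pᴴ * M * (Qᴴ * Pᵀ) := by rw [← hMd]

/-- **T2.02d.5b, core.**  For `M ∈ GL₂(ℂ)` there are `A, B ∈ U(2)` with `adjugate M = A * M * B`. -/
theorem exists_unitary_adjugate8 (M : Matrix (Fin 2) (Fin 2) ℂ) (hM : M.det ≠ 0) :
    ∃ A B : Matrix (Fin 2) (Fin 2) ℂ,
      A * A.conjTranspose = 1 ∧ B * B.conjTranspose = 1 ∧ M.adjugate = A * M * B := by
  obtain ⟨A, B, hA, hB, hAB⟩ := exists_unitary_transpose8 M hM
  have hJ : (!![0, 1; -1, 0] : Matrix (Fin 2) (Fin 2) ℂ) * (!![0, 1; -1, 0])ᴴ = 1 := by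
    ext i j
    fin_cases i <;> fin_cases j <;> simp [Matrix.mul_apply, Fin.sum_univ_two, conjTranspose_apply]
  have hJ' : ((!![0, 1; -1, 0] : Matrix (Fin 2) (Fin 2) ℂ))ᴴ * !![0, 1; -1, 0] = 1 :=
    mul_eq_one_comm.mp hJ
  have hadj : M.adjugate = !![0, 1; -1, 0] * Mᵀ * (!![0, 1; -1, 0])ᴴ := by
    rw [Matrix.adjugate_fin_two]
    ext i j
    fin_cases i <;> fin_cases j <;>
      simp [Matrix.mul_apply, Fin.sum_univ_two, conjTranspose_apply, Matrix.vecMul, dotProduct,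
        transpose_apply]
  refine ⟨!![0, 1; -1, 0] * A, B * (!![0, 1; -1, 0])ᴴ, ?_, ?_, ?_⟩
  · rw [conjTranspose_mul]
    calc !![0, 1; -1, 0] * A * (Aᴴ * (!![0, 1; -1, 0])ᴴ)
        = !![0, 1; -1, 0] * (A * Aᴴ) * (!![0, 1; -1, 0])ᴴ := by simp only [Matrix.mul_assoc]
      _ = 1 := by rw [hA, Matrix.mul_one, hJ]
  · rw [conjTranspose_mul, conjTranspose_conjTranspose]
    calc B * (!![0, 1; -1, 0])ᴴ * (!![0, 1; -1, 0] * Bᴴ)
        = B * ((!![0, 1; -1, 0])ᴴ * !![0, 1; -1, 0]) * Bᴴ := by simp only [Matrix.mul_assoc]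
      _ = 1 := by rw [hJ', Matrix.mul_one, hB]
  · rw [hadj, hAB]
    simp only [Matrix.mul_assoc]

end Fermat.Agent.LT.T2.H8
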