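import Fermat.Agent.LT.T2.H724.CommSpec
import Fermat.Agent.LT.T2.H8.LocCpxCore

/-!
# T2.02d.5b `LocCpxC724` (helper8)

Leaf of `Fermat/Agent/LT/T2/H724/CommSpec.lean` (helper724@7fd05bef9, sha256 78972da3):
for `M ∈ GL₂(ℂ)` there are `A, B ∈ U(2)` with `adjugate M = A * M * B`.
The proof is in `LocCpxCore.lean` (Mathlib only).
-/

namespace Fermat.Agent.LT.T2.H8

/-- **T2.02d.5b.**  `LocCpxC724` holds. -/
theorem locCpxC724_h8 : Fermat.Agent.LT.T2.H724.LocCpxC724 :=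
  fun M hM => exists_unitary_adjugate8 M hM

end Fermat.Agent.LT.T2.H8
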