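import Mathlib
import Fermat.Agent.LT.T2.H437.USSpec

/-!
# Row LT, tower T2, leaf T2.03a.2a `FDCalcC437` (FD calculus on `ℝ^N`) — helper8, OFF-MAIN

`fdCalcC437_h8 : H437.FDCalcC437`, verbatim against `LT/T2/H437/USSpec.lean`
(helper437@ac9f57294, sha256 76bc96ee).

Proof: for a smooth map `ψ : E → F` between real normed spaces and steps `us = [u₁, …, u_m]`,

    ‖∇_{u_m} ⋯ ∇_{u₁} ψ (x)‖ ≤ ∏ ‖u_i‖ · C,   C a bound of ‖D^m ψ‖ on the ball of radius ∑ ‖u_i‖ at x

(`norm_rdiff_le_h8`, induction on the list: `D^m (∇_u ψ)(z) = D^m ψ(z) - D^m ψ(z - u)`, mean value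
inequality on the ball).  `D^M φ` is continuous, hence bounded on the compact ball of radius
`(M + 1) |r|`.

v2 (15:20Z): the definition `rdiff437` is unfolded by `rfl` only.  (v1 used `simp [rdiff437]`, which
realises the equation lemma `rdiff437.eq_def` in THIS module; its proof term mentions the private
constant `rdiff437.match_1.splitter` of the realising module, so the copy here and the copy realised in
`H437/USTop.lean` had different values, and the grader's kernel checker rejects a closure which
contains both: "collides with an existing constant".)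
-/

set_option autoImplicit false

open scoped ContDiff

noncomputable section

namespace Fermat.Agent.LT.T2.H8

open Fermat.Agent.LT.T2.H437

/-- The product of the norms of steps which are at most `c` is at most `c ^ length`. -/
theorem prod_norm_le_pow_h8 {E : Type*} [NormedAddCommGroup E] (c : ℝ) :
    ∀ us : List E, (∀ u ∈ us, ‖u‖ ≤ c) → (us.map norm).prod ≤ c ^ us.length
  | [], _ => by simp
  | u :: us, h => by
      have h1 : ‖u‖ ≤ c := h u (List.mem_cons_self)
      have h2 := prod_norm_le_pow_h8 c us fun v hv => h v (List.mem_cons_of_mem _ hv)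
      have h0 : 0 ≤ (us.map norm).prod :=
        List.prod_nonneg fun a ha => by
          obtain ⟨v, -, rfl⟩ := List.mem_map.mp ha
          exact norm_nonneg v
      rw [List.map_cons, List.prod_cons, List.length_cons, pow_succ']
      exact mul_le_mul h1 h2 h0 ((norm_nonneg u).trans h1)

/-- The sum of the norms of steps which are at most `c` is at most `length * c`. -/
theorem sum_norm_le_h8 {E : Type*} [NormedAddCommGroup E] (c : ℝ) :
    ∀ us : List E, (∀ u ∈ us, ‖u‖ ≤ c) → (us.map norm).sum ≤ us.length * c
  | [], _ => by simp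
  | u :: us, h => by
      have h1 : ‖u‖ ≤ c := h u (List.mem_cons_self)
      have h2 := sum_norm_le_h8 c us fun v hv => h v (List.mem_cons_of_mem _ hv)
      rw [List.map_cons, List.sum_cons, List.length_cons]
      push_cast
      linarith

/-- **Finite differences and derivatives.**  The iterated backward difference of a smooth map
along `us` is bounded by the product of the norms of the steps times a bound of the derivative of
order `us.length` on the ball of radius `∑ ‖u_i‖`. -/
theorem norm_rdiff_le_h8 {E F : Type*} [NormedAddCommGroup E] [NormedSpace ℝ E]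
    [NormedAddCommGroup F] [NormedSpace ℝ F] :
    ∀ (us : List E) (ψ : E → F), ContDiff ℝ ∞ ψ → ∀ (x : E) (C : ℝ),
      (∀ z : E, ‖z - x‖ ≤ (us.map norm).sum → ‖iteratedFDeriv ℝ us.length ψ z‖ ≤ C) →
      ‖rdiff437 us ψ x‖ ≤ (us.map norm).prod * C
  | [], ψ, _, x, C, h => by
      have h0 := h x (by simp)
      rw [List.length_nil, norm_iteratedFDeriv_zero] at h0
      have h1 : rdiff437 [] ψ x = ψ x := rfl
      rw [h1]
      simpa using h0
  | u :: us, ψ, hψ, x, C, h => by
      have hψ' : ContDiff ℝ ∞ (fun y => ψ y - ψ (y - u)) :=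
        hψ.sub (hψ.comp (contDiff_id.sub contDiff_const))
      have hshift : ContDiff ℝ ∞ (fun y => ψ (y - u)) :=
        hψ.comp (contDiff_id.sub contDiff_const)
      have hdiff : Differentiable ℝ (iteratedFDeriv ℝ us.length ψ) :=
        hψ.differentiable_iteratedFDeriv (by exact_mod_cast WithTop.coe_lt_top _)
      have hbound : ∀ z : E, ‖z - x‖ ≤ (us.map norm).sum →
          ‖iteratedFDeriv ℝ us.length (fun y => ψ y - ψ (y - u)) z‖ ≤ ‖u‖ * C := by
        intro z hz
        have he : iteratedFDeriv ℝ us.length (fun y => ψ y - ψ (y - u)) z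
            = iteratedFDeriv ℝ us.length ψ z - iteratedFDeriv ℝ us.length ψ (z - u) := by
          have h1 := iteratedFDeriv_sub_apply (𝕜 := ℝ) (i := us.length) (x := z)
            ((hψ.of_le (by exact_mod_cast le_top)).contDiffAt)
            ((hshift.of_le (by exact_mod_cast le_top)).contDiffAt)
          have h2 : (ψ - fun y => ψ (y - u)) = fun y => ψ y - ψ (y - u) := rfl
          rw [h2] at h1
          rw [h1, iteratedFDeriv_comp_sub]
        rw [he]
        -- mean value inequality on the ball
        set R : ℝ := ‖u‖ + (us.map norm).sum with hR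
        have hconv : Convex ℝ (Metric.closedBall x R) := convex_closedBall x R
        have hz1 : z ∈ Metric.closedBall x R := by
          rw [Metric.mem_closedBall, dist_eq_norm]
          linarith [norm_nonneg u]
        have hz2 : z - u ∈ Metric.closedBall x R := by
          rw [Metric.mem_closedBall, dist_eq_norm]
          have : z - u - x = (z - x) - u := by abel
          rw [this]
          calc ‖(z - x) - u‖ ≤ ‖z - x‖ + ‖u‖ := norm_sub_le _ _
            _ ≤ R := by rw [hR]; linarith
        have hb : ∀ w ∈ Metric.closedBall x R,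
            ‖fderiv ℝ (iteratedFDeriv ℝ us.length ψ) w‖ ≤ C := by
          intro w hw
          rw [norm_fderiv_iteratedFDeriv]
          rw [Metric.mem_closedBall, dist_eq_norm] at hw
          have := h w (by rw [List.map_cons, List.sum_cons]; exact hw)
          rwa [List.length_cons] at this
        have hmv := hconv.norm_image_sub_le_of_norm_fderiv_le
          (fun w _ => hdiff.differentiableAt) hb hz2 hz1
        have hzu : z - (z - u) = u := by abel
        rw [hzu] at hmv
        rw [mul_comm]
        exact hmv
      have hrec := norm_rdiff_le_h8 us (fun y => ψ y - ψ (y - u)) hψ' x (‖u‖ * C) hbound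
      have hunf : rdiff437 (u :: us) ψ = rdiff437 us (fun y => ψ y - ψ (y - u)) := rfl
      rw [hunf, List.map_cons, List.prod_cons]
      calc ‖rdiff437 us (fun y => ψ y - ψ (y - u)) x‖
          ≤ (us.map norm).prod * (‖u‖ * C) := hrec
        _ = ‖u‖ * (us.map norm).prod * C := by ring

/-- **T2.03a.2a FD CALCULUS.** -/
theorem fdCalcC437_h8 : H437.FDCalcC437 := by
  intro N φ hφ M r
  have hφ' : ContDiff ℝ ∞ φ := hφ
  -- a bound of `D^M φ` on the ball of radius `(M + 1) |r|`
  have hcont : Continuous fun z => iteratedFDeriv ℝ M φ z :=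
    hφ'.continuous_iteratedFDeriv (by exact_mod_cast le_top)
  obtain ⟨C, hC⟩ := (isCompact_closedBall (0 : Fin N → ℝ) ((M + 1) * |r|)).exists_bound_of_continuousOn
    hcont.continuousOn
  have hC0 : 0 ≤ C := (norm_nonneg _).trans (hC 0 (by
    rw [Metric.mem_closedBall, dist_self]; positivity))
  refine ⟨|r| ^ M * C, by positivity, ?_⟩
  intro x hx ε hε0 hε1 ts hlen hts
  have hr0 : 0 ≤ r := (norm_nonneg x).trans hx
  have hrabs : |r| = r := abs_of_nonneg hr0
  have htsr : ∀ t ∈ ts, ‖t‖ ≤ r := fun t ht =>
    (hts t ht).trans (mul_le_of_le_one_left hr0 hε1)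
  have hsum : (ts.map norm).sum ≤ M * r := by
    have := sum_norm_le_h8 r ts htsr
    rwa [hlen] at this
  have hprod : (ts.map norm).prod ≤ (ε * r) ^ M := by
    have := prod_norm_le_pow_h8 (ε * r) ts hts
    rwa [hlen] at this
  have hmain := norm_rdiff_le_h8 ts φ hφ' x C (by
    intro z hz
    rw [hlen]
    refine hC z ?_
    rw [Metric.mem_closedBall, dist_zero_right, hrabs]
    calc ‖z‖ = ‖(z - x) + x‖ := by rw [sub_add_cancel]
      _ ≤ ‖z - x‖ + ‖x‖ := norm_add_le _ _
      _ ≤ M * r + r := by linarith
      _ = (M + 1) * r := by ring)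
  calc ‖rdiff437 ts φ x‖ ≤ (ts.map norm).prod * C := hmain
    _ ≤ (ε * r) ^ M * C := mul_le_mul_of_nonneg_right hprod hC0
    _ = |r| ^ M * C * ε ^ M := by rw [hrabs, mul_pow]; ring

end Fermat.Agent.LT.T2.H8

end
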