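import Mathlib
import Fermat.Agent.LT.T2.SpecTau
import Fermat.Agent.LT.T2.H510.Leaf04

/-!
# Row LT, tower T2, leaf T2.24 (`GPST ⇒ HSBoundT`, `GPSKillT ⇒ HSKillT`) — helper8, OFF-MAIN

`leafT04_h8 : T2.LeafT04 K`, verbatim against `LT/T2/SpecTau.lean` (helper130@e2e090185,
sha256 4d2b0fc2), the `T`-form of T2.04 for the class of T5 (level `U(𝔫)`, `K_∞`-type `τ`,
invariance under the ray generator `r`).

The proof is that of T2.04 (helper510, `LT/T2/H510/Leaf04.lean`, sha256 c2c039c1): Bessel at a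
point, then integration over the fundamental domain.  The lemmas of helper510 which do not mention
the class (`sum_sq_le_h510`, `isCuspidalFn_sum_h510`, `nsq_sum_h510`, `nsq_eq_integral_h510`) are
used as they are; the three lemmas on the convolution are restated for a continuous `f` with
compact support, and the classes `IsCuspT`, `IsAutT` are closed under finite linear combinations.
-/

set_option autoImplicit false
set_option linter.style.haveILetI false

open IsDedekindDomain NumberField MeasureTheory AutomorphicForm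
open Fermat.Agent.LT.H556.A0

noncomputable section

namespace Fermat.Agent.LT.T2.H8

open Fermat.Agent.LT
open Fermat.Agent.LT.T2.H510

attribute [local instance] Fermat.Agent.LT.T2.borelG
attribute [local instance] Fermat.Agent.LT.T2.H510.borelSpaceG_h510

variable {K : Type} [Field K] [NumberField K]

/-! ## 1. Linear combinations in the class -/

/-- A finite linear combination of automorphic functions of the class is in the class. -/
theorem isAutT_sum_h8 (𝔫 : Ideal (𝓞 K)) (τ : G K → ℂ) (r : G K) {n : ℕ} (c : Fin n → ℂ)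
    (φ : Fin n → G K → ℂ) (hφ : ∀ i, T2.IsAutT 𝔫 τ r (φ i)) :
    T2.IsAutT 𝔫 τ r (fun g => ∑ i, c i * φ i g) where
  cont := continuous_finsetSum _ fun i _ => continuous_const.mul (hφ i).cont
  bdd := by
    choose C hC using fun i => (hφ i).bdd
    refine ⟨∑ i, ‖c i‖ * C i, fun g => ?_⟩
    calc ‖∑ i, c i * φ i g‖ ≤ ∑ i, ‖c i * φ i g‖ := norm_sum_le _ _
      _ ≤ ∑ i, ‖c i‖ * C i := Finset.sum_le_sum fun i _ => by
          rw [norm_mul]
          exact mul_le_mul_of_nonneg_left (hC i g) (norm_nonneg _)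
  left_inv := fun γ g =>
    Finset.sum_congr rfl fun i _ => by rw [(hφ i).left_inv γ g]
  level_inv := fun u hu g =>
    Finset.sum_congr rfl fun i _ => by rw [(hφ i).level_inv u hu g]
  arch_compact := fun w k hk g => by
    rw [Finset.mul_sum]
    exact Finset.sum_congr rfl fun i _ => by rw [(hφ i).arch_compact w k hk g]; ring
  ray := fun g =>
    Finset.sum_congr rfl fun i _ => by rw [(hφ i).ray g]

/-- A finite linear combination of cusp functions of the class is a cusp function of the class. -/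
theorem isCuspT_sum_h8 (hT1 : T1.T1Out K) (𝔫 : Ideal (𝓞 K)) (τ : G K → ℂ) (r : G K) {n : ℕ}
    (c : Fin n → ℂ) (φ : Fin n → G K → ℂ) (hφ : ∀ i, T2.IsCuspT 𝔫 τ r (φ i)) :
    T2.IsCuspT 𝔫 τ r (fun g => ∑ i, c i * φ i g) where
  aut := isAutT_sum_h8 𝔫 τ r c φ fun i => (hφ i).aut
  cuspidal := isCuspidalFn_sum_h510 hT1 c φ (fun i => (hφ i).aut.cont)
    (fun i => (hφ i).aut.bdd) (fun i => (hφ i).cuspidal)

/-! ## 2. The convolution with a continuous function of compact support -/

/-- The integrand of the convolution is integrable. -/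
theorem integrable_conv_h8 (F : T2.Frame K) {f : G K → ℂ} (hfc : Continuous f)
    (hfs : HasCompactSupport f) {φ : G K → ℂ} (hφ : Continuous φ) (x : G K) :
    Integrable (fun h => φ (x * h) * f h) F.μ := by
  haveI := F.haar
  have hcont : Continuous fun h => φ (x * h) * f h :=
    (hφ.comp (continuous_const.mul continuous_id)).mul hfc
  exact hcont.integrable_of_hasCompactSupport (hfs.mul_left (f := fun h => φ (x * h)))

/-- The convolution of a continuous function with a continuous function of compact support is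
continuous. -/
theorem continuous_conv_h8 (hT1 : T1.T1Out K) (F : T2.Frame K) {f : G K → ℂ}
    (hfc : Continuous f) (hfs : HasCompactSupport f) {φ : G K → ℂ} (hφ : Continuous φ) :
    Continuous (T2.conv F f φ) := by
  haveI := F.haar
  haveI : LocallyCompactSpace (G K) := hT1.locComp.2.1
  haveI : T2Space (G K) := hT1.locComp.2.2.1
  haveI : SecondCountableTopology (G K) := hT1.locComp.2.2.2
  have hu : Continuous (Function.uncurry fun (x : G K) (h : G K) => φ (x * h) * f h) :=
    (hφ.comp (continuous_fst.mul continuous_snd)).mul (hfc.comp continuous_snd)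
  have h1 : Continuous fun x => ∫ h in tsupport f, φ (x * h) * f h ∂F.μ :=
    continuous_parametric_integral_of_continuous hu hfs
  have h2 : T2.conv F f φ = fun x => ∫ h in tsupport f, φ (x * h) * f h ∂F.μ := by
    funext x
    unfold T2.conv
    refine (setIntegral_eq_integral_of_forall_compl_eq_zero fun h hh => ?_).symm
    rw [image_eq_zero_of_notMem_tsupport hh, mul_zero]
  rw [h2]
  exact h1

/-- The convolution is linear on finite combinations of continuous functions. -/
theorem conv_sum_h8 (F : T2.Frame K) {f : G K → ℂ} (hfc : Continuous f)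
    (hfs : HasCompactSupport f) {n : ℕ} (c : Fin n → ℂ) (φ : Fin n → G K → ℂ)
    (hφ : ∀ i, Continuous (φ i)) (x : G K) :
    T2.conv F f (fun g => ∑ i, c i * φ i g) x = ∑ i, c i * T2.conv F f (φ i) x := by
  unfold T2.conv
  have h0 : (fun h => (∑ i, c i * φ i (x * h)) * f h)
      = fun h => ∑ i, c i * (φ i (x * h) * f h) := by
    funext h
    rw [Finset.sum_mul]
    exact Finset.sum_congr rfl fun i _ => by ring
  rw [h0, integral_finsetSum _ fun i _ =>
    (integrable_conv_h8 F hfc hfs (hφ i) x).const_mul (c i)]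
  exact Finset.sum_congr rfl fun i _ => integral_const_mul (c i) _

/-! ## 3. The leaf -/

/-- **The abstract step** (helper510's `hs_of_pointwise_h510` for a continuous `f` with compact
support): a pointwise estimate `|R(f)φ(x)| ≤ C₀ ‖φ‖₂` on a class `P` of bounded continuous
functions which is closed under finite linear combinations gives the Hilbert--Schmidt bound
`∑ ‖R(f) φ_i‖² ≤ max(C₀,0)² μ(D)` for orthonormal families in `P`. -/
theorem hs_of_pointwise_h8 (hT1 : T1.T1Out K) (F : T2.Frame K)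
    {f : G K → ℂ} (hfc : Continuous f) (hfs : HasCompactSupport f) (P : (G K → ℂ) → Prop)
    (hPc : ∀ φ, P φ → Continuous φ) (hPb : ∀ φ, P φ → ∃ C : ℝ, ∀ g : G K, ‖φ g‖ ≤ C)
    (hPs : ∀ (n : ℕ) (c : Fin n → ℂ) (φ : Fin n → G K → ℂ), (∀ i, P (φ i)) →
      P (fun g => ∑ i, c i * φ i g))
    (C₀ : ℝ) (hC₀ : ∀ φ : G K → ℂ, P φ →
      ∀ x : G K, ‖T2.conv F f φ x‖ ≤ C₀ * Real.sqrt (T2.nsq F φ))
    (n : ℕ) (φ : Fin n → G K → ℂ) (hφ : ∀ i, P (φ i))
    (horth : ∀ i j, T2.pair F (φ i) (φ j) = if i = j then 1 else 0) :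
    ∑ i, T2.nsq F (T2.conv F f (φ i)) ≤ (max C₀ 0) ^ 2 * (F.μ F.D).toReal := by
  -- Bessel at a point
  have hpt : ∀ x : G K, ∑ i, ‖T2.conv F f (φ i) x‖ ^ 2 ≤ (max C₀ 0) ^ 2 := by
    intro x
    set a : Fin n → ℂ := fun i => T2.conv F f (φ i) x with ha
    refine sum_sq_le_h510 a (max C₀ 0) (le_max_right _ _) ?_
    have h1 := hC₀ _ (hPs n (fun i => (starRingEnd ℂ) (a i)) φ hφ) x
    rw [conv_sum_h8 F hfc hfs _ φ (fun i => hPc _ (hφ i)) x,
      nsq_sum_h510 F _ φ (fun i => hPc _ (hφ i)) (fun i => hPb _ (hφ i)) horth] at h1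
    have h2 : (∑ i, ‖(starRingEnd ℂ) (a i)‖ ^ 2) = ∑ i, ‖a i‖ ^ 2 :=
      Finset.sum_congr rfl fun i _ => by rw [RCLike.norm_conj]
    rw [h2] at h1
    exact h1.trans (mul_le_mul_of_nonneg_right (le_max_left _ _) (Real.sqrt_nonneg _))
  -- integrability of the squares
  have hint : ∀ i, IntegrableOn (fun g => ‖T2.conv F f (φ i) g‖ ^ 2) F.D F.μ := by
    intro i
    have hc : Continuous fun g => ‖T2.conv F f (φ i) g‖ ^ 2 :=
      ((continuous_conv_h8 hT1 F hfc hfs (hPc _ (hφ i))).norm).pow 2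
    refine Measure.integrableOn_of_bounded
      (M := (C₀ * Real.sqrt (T2.nsq F (φ i))) ^ 2) F.fin.ne hc.aestronglyMeasurable
      (Filter.Eventually.of_forall fun g => ?_)
    rw [Real.norm_of_nonneg (by positivity)]
    exact pow_le_pow_left₀ (norm_nonneg _) (hC₀ _ (hφ i) g) 2
  calc ∑ i, T2.nsq F (T2.conv F f (φ i))
      = ∑ i, ∫ g in F.D, ‖T2.conv F f (φ i) g‖ ^ 2 ∂F.μ :=
        Finset.sum_congr rfl fun i _ => nsq_eq_integral_h510 F _
    _ = ∫ g in F.D, ∑ i, ‖T2.conv F f (φ i) g‖ ^ 2 ∂F.μ :=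
        (integral_finsetSum _ fun i _ => hint i).symm
    _ ≤ ∫ _ in F.D, (max C₀ 0) ^ 2 ∂F.μ :=
        setIntegral_mono (integrable_finsetSum _ fun i _ => hint i)
          (integrableOn_const F.fin.ne) hpt
    _ = (max C₀ 0) ^ 2 * (F.μ F.D).toReal := by
        rw [setIntegral_const, smul_eq_mul, mul_comm]
        rfl

/-- **T2.24**: `GPST ⇒ HSBoundT` and `GPSKillT ⇒ HSKillT` (the hypotheses `𝔫 ≠ ⊥` and `IsKType τ`
are not used). -/
theorem leafT04_h8 (K : Type) [Field K] [NumberField K] : T2.LeafT04 K := by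
  intro hT1 𝔫 τ _ _
  refine ⟨fun hG R f hf => ?_, fun hG R f hf hkill => ?_⟩
  · obtain ⟨C₀, hC₀⟩ := hG R f hf
    exact ⟨(max C₀ 0) ^ 2 * (R.F.μ R.F.D).toReal, fun n φ hφ horth =>
      hs_of_pointwise_h8 hT1 R.F hf.cont hf.cpt (T2.IsCuspT 𝔫 τ R.r)
        (fun _ h => h.aut.cont) (fun _ h => h.aut.bdd)
        (fun n c φ hφ => isCuspT_sum_h8 hT1 𝔫 τ R.r c φ hφ) C₀ hC₀ n φ hφ horth⟩
  · obtain ⟨C₀, hC₀⟩ := hG R f hf hkill
    exact ⟨(max C₀ 0) ^ 2 * (R.F.μ R.F.D).toReal, fun n φ hφ horth =>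
      hs_of_pointwise_h8 hT1 R.F hf.cont hf.cpt (T2.IsAutT 𝔫 τ R.r)
        (fun _ h => h.cont) (fun _ h => h.bdd)
        (fun n c φ hφ => isAutT_sum_h8 𝔫 τ R.r c φ hφ) C₀ hC₀ n φ hφ horth⟩

end Fermat.Agent.LT.T2.H8

end
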