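import Mathlib
import Fermat.Agent.LT.T2.H291.OpsSpecT

/-!
# Row LT, tower T2, sub-leaf T2.27.09 (`SubConvBddT291`, `T`-form of T2.07.09) — helper8, OFF-MAIN

`subConvBddT_of_h8 : SubTranslT291 K → SubConvBddT291 K`, verbatim against
`LT/T2/H291/OpsSpecT.lean` (helper291@22c6ecc98, sha256 c8359c85):
`‖R(f) φ‖² ≤ ‖f‖₁² ‖φ‖²` on the cusp functions of the class `(𝔫, τ, r)`.

The proof is that of T2.07.09 (helper173, `LT/T2/H173/ConvBdd.lean`, sha256 f57dc29c): weighted
Cauchy--Schwarz, Fubini, and the KEY LEMMA (`SubTranslT291`) for `N = |φ|²`, which is left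
invariant under `GL₂(K)` and right invariant under the ray generator `r` (field `ray` of `IsAutT`;
the section on `Z⁺` of T2.07.09 is not needed).  The two class-free lemmas of helper173 are
restated here (`sq_integral_mul_le_h8`, `nsq_eq_h8`) so that this file does not import
`H429/OpsSpec.lean`.
-/

set_option autoImplicit false

open IsDedekindDomain NumberField MeasureTheory
open Fermat.Agent.LT.H556.A0
open Fermat.Agent.LT.T2
open Fermat.Agent.LT.T2.H291

noncomputable section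

namespace Fermat.Agent.LT.T2.H8

variable {K : Type} [Field K] [NumberField K]

attribute [local instance] Fermat.Agent.LT.T2.borelG

/-! ## 1. Weighted Cauchy--Schwarz -/

/-- `(∫ u w)² ≤ (∫ w) (∫ u² w)` for a weight `w ≥ 0`. -/
theorem sq_integral_mul_le_h8 {α : Type*} [MeasurableSpace α] (μ : Measure α) (u w : α → ℝ)
    (hw : ∀ a, 0 ≤ w a) (h0 : Integrable w μ) (h1 : Integrable (fun a => u a * w a) μ)
    (h2 : Integrable (fun a => u a ^ 2 * w a) μ) :
    (∫ a, u a * w a ∂μ) ^ 2 ≤ (∫ a, w a ∂μ) * ∫ a, u a ^ 2 * w a ∂μ := by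
  have key : ∀ t : ℝ, 0 ≤ (∫ a, w a ∂μ) * (t * t) + (-2 * ∫ a, u a * w a ∂μ) * t
      + ∫ a, u a ^ 2 * w a ∂μ := by
    intro t
    have e : (fun a => (u a - t) ^ 2 * w a)
        = fun a => (t * t) * w a + ((-2 * t) * (u a * w a) + u a ^ 2 * w a) := by
      funext a; ring
    have h3 : ∫ a, (u a - t) ^ 2 * w a ∂μ
        = (∫ a, w a ∂μ) * (t * t) + (-2 * ∫ a, u a * w a ∂μ) * t + ∫ a, u a ^ 2 * w a ∂μ := by
      rw [e]
      have i1 : Integrable (fun a => (t * t) * w a) μ := h0.const_mul _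
      have i2 : Integrable (fun a => (-2 * t) * (u a * w a)) μ := h1.const_mul _
      have i3 : Integrable (fun a => (-2 * t) * (u a * w a) + u a ^ 2 * w a) μ := i2.add h2
      rw [integral_add i1 i3, integral_add i2 h2, integral_const_mul, integral_const_mul]
      ring
    rw [← h3]
    exact integral_nonneg fun a => mul_nonneg (sq_nonneg _) (hw a)
  have h := discrim_le_zero key
  unfold discrim at h
  nlinarith

/-! ## 2. The square of the norm as a real integral -/

theorem nsq_eq_h8 (F : Frame K) (φ : G K → ℂ) :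
    nsq F φ = ∫ g in F.D, Complex.normSq (φ g) ∂F.μ := by
  unfold nsq pair
  have e : (fun g => φ g * (starRingEnd ℂ) (φ g))
      = fun g => ((Complex.normSq (φ g) : ℝ) : ℂ) := by
    funext g; rw [Complex.mul_conj]
  rw [e, integral_complex_ofReal, Complex.ofReal_re]

/-! ## 3. The bound -/

/-- **T2.27.09** from the KEY LEMMA T2.27.00. -/
theorem subConvBddT_of_h8 (hT : SubTranslT291 K) : SubConvBddT291 K := by
  intro 𝔫 τ c R f hf
  obtain ⟨-, hlc, ht2, hsc⟩ := c.t1.locComp
  have := hlc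
  have := ht2
  have := hsc
  have : BorelSpace (G K) := ⟨rfl⟩
  have := R.F.haar
  have : IsFiniteMeasure (R.F.μ.restrict R.F.D) := ⟨by
    rw [Measure.restrict_apply MeasurableSet.univ, Set.univ_inter]; exact R.F.fin⟩
  have hfc : Continuous f := hf.test.cont
  have hfs : HasCompactSupport f := hf.test.cpt
  -- the weight `w = |f|`
  set w : G K → ℝ := fun h => ‖f h‖ with hw
  have hwc : Continuous w := hfc.norm
  have hws : HasCompactSupport w := hfs.norm
  have hw0 : ∀ h, 0 ≤ w h := fun h => norm_nonneg _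
  have hwi : Integrable w R.F.μ := hwc.integrable_of_hasCompactSupport hws
  set L : ℝ := ∫ h, w h ∂(R.F.μ) with hL
  have hL0 : 0 ≤ L := integral_nonneg hw0
  refine ⟨L ^ 2, fun φ hφ => ?_⟩
  obtain ⟨B, hB⟩ := hφ.aut.bdd
  have hψ : IsCuspT 𝔫 τ R.r (conv R.F f φ) := (c.cc R).2.2.1 f φ hf.test hφ
  obtain ⟨B', hB'⟩ := hψ.aut.bdd
  rw [nsq_eq_h8, nsq_eq_h8]
  set N : G K → ℝ := fun g => Complex.normSq (φ g) with hN
  have hNc : Continuous N := Complex.continuous_normSq.comp hφ.aut.cont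
  have hN0 : ∀ g, 0 ≤ N g := fun g => Complex.normSq_nonneg _
  have hNB : ∀ g, N g ≤ B ^ 2 := by
    intro g
    show Complex.normSq (φ g) ≤ B ^ 2
    rw [Complex.normSq_eq_norm_sq]
    exact pow_le_pow_left₀ (norm_nonneg _) (hB g) 2
  -- the function on the product
  set Fn : G K × G K → ℝ := fun p => N (p.1 * p.2) * w p.2 with hFn
  have hFnc : Continuous Fn :=
    (hNc.comp (continuous_fst.mul continuous_snd)).mul (hwc.comp continuous_snd)
  have hFni : Integrable Fn ((R.F.μ.restrict R.F.D).prod R.F.μ) := by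
    have hb : Integrable (fun p : G K × G K => (fun _ : G K => B ^ 2) p.1 * w p.2)
        ((R.F.μ.restrict R.F.D).prod R.F.μ) :=
      Integrable.mul_prod (integrable_const _) hwi
    refine hb.mono' hFnc.aestronglyMeasurable (Filter.Eventually.of_forall fun p => ?_)
    show ‖N (p.1 * p.2) * w p.2‖ ≤ B ^ 2 * w p.2
    rw [Real.norm_eq_abs, abs_of_nonneg (mul_nonneg (hN0 _) (hw0 _))]
    exact mul_le_mul_of_nonneg_right (hNB _) (hw0 _)
  -- the KEY LEMMA for `N`
  have hkey : ∀ h : G K, ∫ x in R.F.D, N (x * h) ∂(R.F.μ) = ∫ x in R.F.D, N x ∂(R.F.μ) := by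
    intro h
    have h1 := hT c.t1 R (fun g => ((N g : ℝ) : ℂ))
      (fun γ g => by
        show ((Complex.normSq (φ (T1.ratG K γ * g)) : ℝ) : ℂ) = ((Complex.normSq (φ g) : ℝ) : ℂ)
        rw [show φ (T1.ratG K γ * g) = φ g from hφ.aut.left_inv γ g])
      (fun g => by
        show ((Complex.normSq (φ (g * R.r)) : ℝ) : ℂ) = ((Complex.normSq (φ g) : ℝ) : ℂ)
        rw [hφ.aut.ray g]) h
    have h2 : ∫ g in R.F.D, ((N (g * h) : ℝ) : ℂ) ∂(R.F.μ)
        = ∫ g in R.F.D, ((N g : ℝ) : ℂ) ∂(R.F.μ) := h1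
    rw [integral_complex_ofReal, integral_complex_ofReal] at h2
    exact Complex.ofReal_injective h2
  -- pointwise Cauchy--Schwarz
  have hpt : ∀ x : G K, Complex.normSq (conv R.F f φ x) ≤ L * ∫ h, Fn (x, h) ∂(R.F.μ) := by
    intro x
    set u : G K → ℝ := fun h => ‖φ (x * h)‖ with hu
    have huc : Continuous u := (hφ.aut.cont.comp (continuous_const.mul continuous_id)).norm
    have i1 : Integrable (fun a => u a * w a) R.F.μ :=
      (huc.mul hwc).integrable_of_hasCompactSupport hws.mul_left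
    have i2 : Integrable (fun a => u a ^ 2 * w a) R.F.μ :=
      ((huc.pow 2).mul hwc).integrable_of_hasCompactSupport hws.mul_left
    have hcs := sq_integral_mul_le_h8 R.F.μ u w hw0 hwi i1 i2
    have e2 : (fun a => u a ^ 2 * w a) = fun h => Fn (x, h) := by
      funext a
      show ‖φ (x * a)‖ ^ 2 * w a = Complex.normSq (φ (x * a)) * w a
      rw [Complex.normSq_eq_norm_sq]
    rw [e2] at hcs
    have h3 : ‖conv R.F f φ x‖ ≤ ∫ a, u a * w a ∂(R.F.μ) := by
      unfold conv
      refine (norm_integral_le_integral_norm _).trans (le_of_eq ?_)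
      refine integral_congr_ae (Filter.Eventually.of_forall fun a => ?_)
      show ‖φ (x * a) * f a‖ = ‖φ (x * a)‖ * ‖f a‖
      exact norm_mul _ _
    rw [Complex.normSq_eq_norm_sq]
    calc ‖conv R.F f φ x‖ ^ 2 ≤ (∫ a, u a * w a ∂(R.F.μ)) ^ 2 :=
          pow_le_pow_left₀ (norm_nonneg _) h3 2
      _ ≤ L * ∫ h, Fn (x, h) ∂(R.F.μ) := hcs
  -- integrate over the domain
  have hJi : Integrable (fun x => ∫ h, Fn (x, h) ∂(R.F.μ)) (R.F.μ.restrict R.F.D) :=
    hFni.integral_prod_left
  have hψi : Integrable (fun x => Complex.normSq (conv R.F f φ x)) (R.F.μ.restrict R.F.D) := by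
    refine Integrable.mono' (integrable_const (B' ^ 2))
      (Complex.continuous_normSq.comp hψ.aut.cont).aestronglyMeasurable
      (Filter.Eventually.of_forall fun x => ?_)
    rw [Real.norm_eq_abs, abs_of_nonneg (Complex.normSq_nonneg _), Complex.normSq_eq_norm_sq]
    exact pow_le_pow_left₀ (norm_nonneg _) (hB' x) 2
  have hswap : ∫ x in R.F.D, (∫ h, Fn (x, h) ∂(R.F.μ)) ∂(R.F.μ)
      = (∫ x in R.F.D, N x ∂(R.F.μ)) * L := by
    have h1 := integral_integral_swap (μ := R.F.μ.restrict R.F.D) (ν := R.F.μ)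
      (f := fun x h => Fn (x, h)) hFni
    rw [h1]
    have h2 : (fun h => ∫ x in R.F.D, Fn (x, h) ∂(R.F.μ))
        = fun h => (∫ x in R.F.D, N x ∂(R.F.μ)) * w h := by
      funext h
      show ∫ x in R.F.D, N (x * h) * w h ∂(R.F.μ) = _
      rw [integral_mul_const, hkey h]
    rw [h2, integral_const_mul]
  calc ∫ g in R.F.D, Complex.normSq (conv R.F f φ g) ∂(R.F.μ)
      ≤ ∫ x in R.F.D, L * ∫ h, Fn (x, h) ∂(R.F.μ) ∂(R.F.μ) :=
        integral_mono hψi (hJi.const_mul L) hpt
    _ = L * ((∫ x in R.F.D, N x ∂(R.F.μ)) * L) := by rw [integral_const_mul, hswap]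
    _ = L ^ 2 * ∫ g in R.F.D, Complex.normSq (φ g) ∂(R.F.μ) := by ring

end Fermat.Agent.LT.T2.H8

end
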