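import Mathlib
import Fermat.Agent.LT.T2.H973.ArchSpec

/-!
# Row LT, tower T2, leaf T2.10.08.01 `WhEquivC` (A1) — helper8, OFF-MAIN

`whEquivC_h8 : H973.WhEquivC K`, verbatim against `LT/T2/H973/ArchSpec.lean` (helper973@1d2e30d90,
sha256 6e234a4a0ea7): the Whittaker coefficient `W = wh ψ ν D Φ` of a left `GL₂(K)`-invariant
function satisfies `W(n(a) g) = ψ(a) W(g)`.

Proof: `F(x) = Φ(n(x) g) conj ψ(x)` is `K`-periodic (`n(ξ) = ratG (n_K(ξ))`, `ψ` trivial on `K`);
`Φ(n(x) n(a) g) conj ψ(x) = ψ(a) F(x + a)`; `{y | y - a ∈ D}` is a fundamental domain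
(`IsAddFundamentalDomain.preimage_of_equiv`) and the integral of a periodic function does not depend
on the fundamental domain (`IsAddFundamentalDomain.setIntegral_eq`).  Neither the continuity nor
the boundedness of `Φ` is used, and of `LocCompC` nothing is used.
-/

set_option autoImplicit false
set_option linter.style.haveILetI false

open IsDedekindDomain NumberField MeasureTheory AutomorphicForm
open Fermat.Agent.LT.H556.A0
open scoped ComplexConjugate

noncomputable section

namespace Fermat.Agent.LT.T2.H8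

open Fermat.Agent.LT
open Fermat.Agent.LT.T2.H941

variable {K : Type} [Field K] [NumberField K]

/-- The rational unipotent element `n(ξ) = [[1, ξ], [0, 1]]` of `GL₂(K)`. -/
def unipK8 (ξ : K) : GL (Fin 2) K :=
  ⟨!![1, ξ; 0, 1], !![1, -ξ; 0, 1],
    by ext i j; fin_cases i <;> fin_cases j <;> simp [Matrix.mul_apply, Fin.sum_univ_two],
    by ext i j; fin_cases i <;> fin_cases j <;> simp [Matrix.mul_apply, Fin.sum_univ_two]⟩

/-- `n(emb ξ)` is the image of the rational unipotent element. -/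
theorem ratG_unipK8 (ξ : K) : T1.ratG K (unipK8 ξ) = T3.unip K (T3.emb K ξ) := by
  apply Units.ext
  ext i j
  fin_cases i <;> fin_cases j <;>
    simp [T1.ratG, T3.unip, unipK8, Matrix.GeneralLinearGroup.map]

/-- `n(x + y) = n(x) n(y)`. -/
theorem unip_add8 (x y : Adl K) : T3.unip K (x + y) = T3.unip K x * T3.unip K y := by
  apply Units.ext
  ext i j
  fin_cases i <;> fin_cases j <;>
    simp [T3.unip, Matrix.mul_apply, Fin.sum_univ_two, add_comm]

/-- The integrand of the Whittaker coefficient is `K`-periodic. -/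
theorem whIntegrand_periodic8 (ψ : AddChar (Adl K) Circle) (hψ : T3.IsStdChar K ψ)
    (Φ : G K → ℂ) (hΦ : ∀ (γ : GL (Fin 2) K) (g : G K), Φ (T1.ratG K γ * g) = Φ g) (g : G K)
    (ξ : T1.princ K) (x : Adl K) :
    Φ (T3.unip K (ξ +ᵥ x) * g) * conj ((ψ (ξ +ᵥ x) : Circle) : ℂ)
      = Φ (T3.unip K x * g) * conj ((ψ x : Circle) : ℂ) := by
  obtain ⟨ξ, k, rfl⟩ := ξ
  have h1 : (⟨(algebraMap K (Adl K)).toAddMonoidHom k, ⟨k, rfl⟩⟩ : T1.princ K) +ᵥ x
      = T3.emb K k + x := rfl
  rw [h1, unip_add8, ← ratG_unipK8, mul_assoc, hΦ, AddChar.map_add_eq_mul, hψ.triv k, one_mul]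

/-- **T2.10.08.01 (A1).**  `W(n(a) g) = ψ(a) W(g)`. -/
theorem whEquivC_h8 (K : Type) [Field K] [NumberField K] : H973.WhEquivC K := by
  letI : MeasurableSpace (Adl K) := borel (Adl K)
  haveI : BorelSpace (Adl K) := ⟨rfl⟩
  intro _ ψ ν D hW Φ _ _ hΦ a g
  obtain ⟨hψ, -, -, hν, -, hD, -⟩ := hW
  haveI := hν
  haveI : Countable (T1.princ K) := by
    have : Countable K := Finsupp.Countable.of_moduleFinite (R := ℚ) (M := K)
    exact (AddMonoidHom.rangeRestrict_surjective
      ((algebraMap K (Adl K)).toAddMonoidHom)).countable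
  -- the periodic integrand
  set F : Adl K → ℂ := fun x => Φ (T3.unip K x * g) * conj ((ψ x : Circle) : ℂ) with hF
  have hFper : ∀ (ξ : T1.princ K) (x : Adl K), F (ξ +ᵥ x) = F x := fun ξ x =>
    whIntegrand_periodic8 ψ hψ Φ hΦ g ξ x
  -- the integrand of `W(n(a) g)`
  have hint : ∀ x : Adl K,
      Φ (T3.unip K x * (T3.unip K a * g)) * conj ((ψ x : Circle) : ℂ)
        = ((ψ a : Circle) : ℂ) * F (x + a) := by
    intro x
    have hn : ((ψ a : Circle) : ℂ) * conj ((ψ a : Circle) : ℂ) = 1 := by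
      rw [Complex.mul_conj, Complex.normSq_eq_norm_sq, Circle.norm_coe]
      simp
    simp only [hF]
    rw [unip_add8, mul_assoc, AddChar.map_add_eq_mul, Circle.coe_mul, map_mul]
    calc Φ (T3.unip K x * (T3.unip K a * g)) * conj ((ψ x : Circle) : ℂ)
        = Φ (T3.unip K x * (T3.unip K a * g)) * conj ((ψ x : Circle) : ℂ)
            * (((ψ a : Circle) : ℂ) * conj ((ψ a : Circle) : ℂ)) := by rw [hn, mul_one]
      _ = ((ψ a : Circle) : ℂ) * (Φ (T3.unip K x * (T3.unip K a * g))
            * (conj ((ψ x : Circle) : ℂ) * conj ((ψ a : Circle) : ℂ))) := by ring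
  -- the translate of the fundamental domain
  have hmp : MeasurePreserving (fun y : Adl K => y + (-a)) ν ν :=
    measurePreserving_add_right ν (-a)
  have hD' : IsAddFundamentalDomain (T1.princ K) ((fun y : Adl K => y + (-a)) ⁻¹' D) ν := by
    refine hD.preimage_of_equiv hmp.quasiMeasurePreserving (e := id) Function.bijective_id ?_
    intro ξ y
    change ((ξ : Adl K) + y) + (-a) = (ξ : Adl K) + (y + (-a))
    rw [add_assoc]
  have hemb : MeasurableEmbedding (fun y : Adl K => y + (-a)) :=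
    (MeasurableEquiv.addRight (-a)).measurableEmbedding
  have hcv : ∫ y in D, F (y + a) ∂ν
      = ∫ x in (fun y : Adl K => y + (-a)) ⁻¹' D, F x ∂ν := by
    have h := hmp.setIntegral_preimage_emb hemb (fun y => F (y + a)) D
    simp only [neg_add_cancel_right] at h
    exact h.symm
  unfold wh
  calc ∫ x in D, Φ (T3.unip K x * (T3.unip K a * g)) * conj ((ψ x : Circle) : ℂ) ∂ν
      = ∫ x in D, ((ψ a : Circle) : ℂ) * F (x + a) ∂ν :=
        integral_congr_ae (Filter.Eventually.of_forall hint)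
    _ = ((ψ a : Circle) : ℂ) * ∫ x in D, F (x + a) ∂ν := integral_const_mul _ _
    _ = ((ψ a : Circle) : ℂ) * ∫ x in (fun y : Adl K => y + (-a)) ⁻¹' D, F x ∂ν := by rw [hcv]
    _ = ((ψ a : Circle) : ℂ) * ∫ x in D, F x ∂ν := by
        rw [hD'.setIntegral_eq hD hFper]

end Fermat.Agent.LT.T2.H8

end
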